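/-
S56 / block EC / BASE CASE: the export `units_nf` now lives in `Base/UnitsNF.lean` (assembly; leaves `Base/NF/*`).
-/
import Fermat.Agent.S56.EC.Base.UnitsNF
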